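/-
P-CFT row 833 (helper83), INV-MU: `muDescentTw : Fermat.Agent.H78.CFT.MuDescentTwStatement`,
descent from `ℚ̄ˣ` to `μ_p` with the twisted action (no `ζ_p` in `E`).
Adaptation of helper57's `muDescent` (Hilbert 90 for level cocycles + `p`-th roots).
-/
import Mathlib
import Fermat.Agent.H78.CFT.LocalInvRows
import Fermat.Agent.H57.CFT.H90Lvl

set_option autoImplicit false
set_option linter.unusedSectionVars false
set_option linter.style.haveILetI false

namespace Fermat.Agent.H83.CFT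

open Fermat.Agent.H13.Cft Fermat.Agent.H78.CFT Fermat.Agent.H57.CFT IntermediateField

noncomputable section

/-- **[INV-MU]** descent from `ℚ̄ˣ` to `μ_p` with the twisted action. -/
theorem muDescentTw : MuDescentTwStatement := by
  classical
  intro p _ E ζ hζ χ hχ c hc
  obtain ⟨x, ⟨N, hN, hxN⟩, hx⟩ := hc
  have hp : p.Prime := Fact.out
  haveI : NeZero p := ⟨hp.ne_zero⟩
  haveI := isGalois_qb
  -- `ζ` as a unit is a primitive root
  have hζu : IsPrimitiveRoot ζ p := IsPrimitiveRoot.coe_units_iff.mp hζ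
  -- the action on `ζ`
  have hgζ : ∀ g : E.fixingSubgroup, actU (g : Qb ≃ₐ[ℚ] Qb) ζ = ζ ^ (χ g).val := hχ
  -- the relation satisfied by `x`
  have hrel : ∀ g h : E.fixingSubgroup,
      actU (g : Qb ≃ₐ[ℚ] Qb) (x h) * x g = ζ ^ (c (g, h)).val * x (g * h) := by
    intro g h
    have h1 : actU (g : Qb ≃ₐ[ℚ] Qb) (x h) * x g / x (g * h) = ζ ^ (c (g, h)).val := hx (g, h)
    exact div_eq_iff_eq_mul.mp h1
  -- `x ^ p` is a level cocycle
  have hcoc : IsMulCocycle₁E E (fun g => x g ^ p) := by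
    intro g h
    show x (g * h) ^ p = actU (g : Qb ≃ₐ[ℚ] Qb) (x h ^ p) * x g ^ p
    rw [map_pow, ← mul_pow, hrel g h, mul_pow, ← pow_mul, mul_comm _ p, pow_mul,
      hζu.pow_eq_one, one_pow, one_mul]
  obtain ⟨z, hz⟩ := h90Lvl E (fun g => x g ^ p)
    ⟨N, hN, fun g n hn => by show x (g * n) ^ p = x g ^ p; rw [hxN g n hn]⟩ hcoc
  have hz' : ∀ g : E.fixingSubgroup, x g ^ p = actU (g : Qb ≃ₐ[ℚ] Qb) z / z := hz
  -- a `p`-th root of `z`
  obtain ⟨y0, hy0⟩ := IsAlgClosed.exists_pow_nat_eq (z : Qb) hp.pos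
  have hy0ne : y0 ≠ 0 := by
    rintro rfl
    rw [zero_pow hp.ne_zero] at hy0
    exact z.ne_zero hy0.symm
  set y : Qbˣ := Units.mk0 y0 hy0ne with hy
  have hyz : y ^ p = z := by
    ext
    rw [Units.val_pow_eq_pow_val, Units.val_mk0, hy0]
  -- `x / (g y / y)` is `μ_p`-valued
  have hx' : ∀ g : E.fixingSubgroup, (x g / (actU (g : Qb ≃ₐ[ℚ] Qb) y / y)) ^ p = 1 := by
    intro g
    rw [div_pow, div_pow, ← map_pow, hyz, hz' g, div_self']
  have hex : ∀ g : E.fixingSubgroup,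
      ∃ i < p, ζ ^ i = x g / (actU (g : Qb ≃ₐ[ℚ] Qb) y / y) :=
    fun g => by
      have h1 : ((x g / (actU (g : Qb ≃ₐ[ℚ] Qb) y / y) : Qbˣ) : Qb) ^ p = 1 := by
        rw [← Units.val_pow_eq_pow_val, hx' g, Units.val_one]
      obtain ⟨j, hj, hj'⟩ := hζ.eq_pow_of_pow_eq_one h1
      refine ⟨j, hj, ?_⟩
      ext
      rw [Units.val_pow_eq_pow_val, hj']
  choose i hi hζi using hex
  have hxi : ∀ g : E.fixingSubgroup, x g = ζ ^ i g * (actU (g : Qb ≃ₐ[ℚ] Qb) y / y) := by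
    intro g
    rw [hζi g, div_mul_cancel]
  -- a level fixing `y`
  have hint : IsIntegral ℚ y0 := isGalois_qb.to_normal.isIntegral y0
  haveI : FiniteDimensional ℚ (IntermediateField.adjoin ℚ {y0}) :=
    IntermediateField.adjoin.finiteDimensional hint
  obtain ⟨N₂, hN₂, hN₂le⟩ := exists_lvlE_le E (IntermediateField.adjoin ℚ {y0})
  obtain ⟨N₃, hN₃, hle⟩ := (lvlE E).directed N hN N₂ hN₂
  have hny : ∀ n ∈ N₃, actU ((n : E.fixingSubgroup) : Qb ≃ₐ[ℚ] Qb) y = y := by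
    intro n hn
    have h1 : (n : Qb ≃ₐ[ℚ] Qb) ∈ (IntermediateField.adjoin ℚ {y0}).fixingSubgroup :=
      hN₂le ((hle hn).2)
    ext
    rw [coe_actU, hy, Units.val_mk0]
    exact (IntermediateField.mem_fixingSubgroup_iff _ _).mp h1 y0
      (IntermediateField.mem_adjoin_simple_self ℚ y0)
  have hiN : ∀ g : E.fixingSubgroup, ∀ n ∈ N₃, i (g * n) = i g := by
    intro g n hn
    refine hζu.pow_inj (hi _) (hi _) ?_
    rw [hζi, hζi, hxN g n (hle hn).1, Subgroup.coe_mul, actU_mul, hny n hn]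
  refine ⟨fun g => (i g : ZMod p), ⟨N₃, hN₃, fun g n hn => ?_⟩, fun g h => ?_⟩
  · show ((i (g * n) : ℕ) : ZMod p) = (i g : ZMod p)
    rw [hiN g n hn]
  · have h1 := hrel g h
    rw [hxi h, hxi g, hxi (g * h), map_mul, map_div, map_pow, hgζ g, ← actU_mul,
      ← Subgroup.coe_mul, mul_mul_mul_comm, div_mul_div_cancel, ← mul_assoc] at h1
    have h2 := mul_right_cancel h1
    rw [← pow_mul, ← pow_add, ← pow_add, pow_eq_pow_iff_modEq, ← hζu.eq_orderOf] at h2
    have h3 := (ZMod.natCast_eq_natCast_iff _ _ _).mpr h2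
    push_cast at h3
    rw [ZMod.natCast_zmod_val, ZMod.natCast_zmod_val] at h3
    show χ g * ((i h : ℕ) : ZMod p) - (i (g * h) : ZMod p) + (i g : ZMod p) = c (g, h)
    linear_combination h3

end

end Fermat.Agent.H83.CFT
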